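import Mathlib

/-!
# PROJECT N (S33), shared leaf `Alg/OrdLine` (helper10): the ordinary line from `(KP-id)`

Pure linear algebra over a local ring `T` (Mathlib only).  `V` free of rank two over `T`, a group
`G` acting through `ρ : G →* End_T V`, subgroups `I`, `D` with `I` normalised by `D`, a function
`χ : G → T` and

* `(KP-id)` : `(ρ τ - χ τ) (ρ σ - 1) = 0` for all `σ, τ ∈ I`;
* `det (ρ τ) = χ τ` for `τ ∈ I`;
* one `τ₀ ∈ I` with `χ τ₀ - 1` a unit of `T`.

Then `L := ker (ρ τ₀ - χ τ₀)` is a `D`-stable line spanned by the first vector of a basis of `V`,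
and `(ρ σ - 1) V ⊆ L` for every `σ ∈ I`: the literal shape of `GaloisRepAdic.IsOrdinaryAt`.
No reducedness or completeness of `T` is used, and `χ` need not be a character.
-/

set_option autoImplicit false

namespace Fermat.Agent.S33.Alg.OrdLine

variable {T : Type*} [CommRing T] [IsLocalRing T]
  {V : Type*} [AddCommGroup V] [Module T V] [Module.Free T V] [Module.Finite T V]
  {G : Type*} [Group G]

theorem exists_ordinary_line (hV : Module.finrank T V = 2)
    (ρ : G →* Module.End T V) (χ : G → T) (D I : Subgroup G)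
    (hnorm : ∀ g ∈ D, ∀ τ ∈ I, g * τ * g⁻¹ ∈ I)
    (hKP : ∀ σ ∈ I, ∀ τ ∈ I, (ρ τ - χ τ • (1 : Module.End T V)) * (ρ σ - 1) = 0)
    (hdet : ∀ τ ∈ I, LinearMap.det (ρ τ) = χ τ)
    (τ₀ : G) (hτ₀ : τ₀ ∈ I) (hu : IsUnit (χ τ₀ - 1)) :
    ∃ L : Submodule T V,
      (∃ b : Module.Basis (Fin 2) T V, L = T ∙ b 0) ∧
      (∀ g ∈ D, ∀ v ∈ L, ρ g v ∈ L) ∧
      (∀ σ ∈ I, ∀ v : V, ρ σ v - v ∈ L) := by
  classical
  set a : Module.End T V := ρ τ₀ with ha
  set c : T := χ τ₀ with hc
  obtain ⟨u, hu'⟩ := hu
  -- the two complementary submodules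
  let L : Submodule T V := LinearMap.ker (a - c • (1 : Module.End T V))
  let K : Submodule T V := LinearMap.ker (a - 1)
  have hmemL : ∀ v, v ∈ L ↔ a v = c • v := by
    intro v
    simp only [L, LinearMap.mem_ker, LinearMap.sub_apply, LinearMap.smul_apply,
      Module.End.one_apply, sub_eq_zero]
  have hmemK : ∀ v, v ∈ K ↔ a v = v := by
    intro v
    simp only [K, LinearMap.mem_ker, LinearMap.sub_apply, Module.End.one_apply, sub_eq_zero]
  -- `(ρ σ - 1) V ⊆ L`
  have hIL : ∀ σ ∈ I, ∀ v : V, ρ σ v - v ∈ L := by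
    intro σ hσ v
    have h := LinearMap.congr_fun (hKP σ hσ τ₀ hτ₀) v
    simp only [Module.End.mul_apply, LinearMap.sub_apply, LinearMap.smul_apply,
      Module.End.one_apply, LinearMap.zero_apply] at h
    rw [hmemL]
    exact sub_eq_zero.1 h
  -- elements of `L` are of the form `(a - 1) w`
  have hLrange : ∀ v ∈ L, v = a ((↑u⁻¹ : T) • v) - (↑u⁻¹ : T) • v := by
    intro v hv
    rw [map_smul, (hmemL v).1 hv, ← smul_sub]
    have e : c • v - v = (u : T) • v := by rw [hu', sub_smul, one_smul]
    rw [e, smul_smul, Units.inv_mul, one_smul]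
  -- stability under `D`
  have hDL : ∀ g ∈ D, ∀ v ∈ L, ρ g v ∈ L := by
    intro g hg v hv
    have h1 := hLrange v hv
    set w := (↑u⁻¹ : T) • v with hw
    have e1 : ρ (g * τ₀ * g⁻¹) (ρ g w) = ρ g (a w) := by
      rw [← Module.End.mul_apply, ← map_mul, inv_mul_cancel_right, map_mul, Module.End.mul_apply]
    have h2 : ρ g v = ρ (g * τ₀ * g⁻¹) (ρ g w) - ρ g w := by
      rw [e1, ← map_sub, ← h1]
    rw [h2]
    exact hIL _ (hnorm g hg τ₀ hτ₀) _
  -- complementarity
  have hdisj : L ⊓ K = ⊥ := by
    rw [eq_bot_iff]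
    intro v hv
    rw [Submodule.mem_bot]
    have h1 := (hmemL v).1 hv.1
    have h2 := (hmemK v).1 hv.2
    have h3 : (u : T) • v = 0 := by
      rw [hu', sub_smul, one_smul, ← h1, h2, sub_self]
    have := congrArg (fun x => (↑u⁻¹ : T) • x) h3
    simpa [smul_smul] using this
  have hsup : L ⊔ K = ⊤ := by
    rw [eq_top_iff]
    intro v _
    -- `v = u⁻¹ (a v - v) + (v - u⁻¹ (a v - v))`
    have hvL : (↑u⁻¹ : T) • (a v - v) ∈ L := L.smul_mem _ (hIL τ₀ hτ₀ v)
    have hvK : v - (↑u⁻¹ : T) • (a v - v) ∈ K := by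
      rw [hmemK, map_sub, map_smul]
      have h4 := (hmemL _).1 (hIL τ₀ hτ₀ v)
      -- a (a v - v) = c (a v - v)
      have h5 : a (a v - v) = c • (a v - v) := h4
      rw [h5]
      have h6 : c = (u : T) + 1 := by rw [hu']; ring
      rw [h6, add_smul, one_smul, smul_add, smul_smul, Units.inv_mul, one_smul]
      abel
    have : v = (↑u⁻¹ : T) • (a v - v) + (v - (↑u⁻¹ : T) • (a v - v)) := by abel
    rw [this]
    exact Submodule.add_mem_sup hvL hvK
  have hcompl : IsCompl L K := ⟨disjoint_iff.2 hdisj, codisjoint_iff.2 hsup⟩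
  -- both summands are finite free
  have : Module.Finite T L := Module.Finite.of_surjective (Submodule.projectionOnto L K hcompl)
    (Submodule.projectionOnto_surjective hcompl)
  have : Module.Finite T K :=
    Module.Finite.of_surjective (Submodule.projectionOnto K L hcompl.symm)
      (Submodule.projectionOnto_surjective hcompl.symm)
  have : Module.Projective T L :=
    Module.Projective.of_split L.subtype (Submodule.projectionOnto L K hcompl)
      (Submodule.projectionOnto_comp_subtype hcompl)
  have : Module.Projective T K :=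
    Module.Projective.of_split K.subtype (Submodule.projectionOnto K L hcompl.symm)
      (Submodule.projectionOnto_comp_subtype hcompl.symm)
  have : Module.Free T L := Module.free_of_flat_of_isLocalRing
  have : Module.Free T K := Module.free_of_flat_of_isLocalRing
  -- the decomposition and the determinant
  let e : (L × K) ≃ₗ[T] V := Submodule.prodEquivOfIsCompl L K hcompl
  have hrank : Module.finrank T L + Module.finrank T K = 2 := by
    rw [← Module.finrank_prod, LinearEquiv.finrank_eq e, hV]
  have hconj : a = e.conj ((c • (LinearMap.id : L →ₗ[T] L)).prodMap (LinearMap.id : K →ₗ[T] K)) := by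
    apply LinearMap.ext
    intro v
    obtain ⟨⟨x, y⟩, rfl⟩ := e.surjective v
    rw [LinearEquiv.conj_apply_apply, LinearEquiv.symm_apply_apply]
    simp only [e, Submodule.coe_prodEquivOfIsCompl', LinearMap.prodMap_apply, LinearMap.smul_apply,
      LinearMap.id_apply, map_add, Submodule.coe_smul]
    rw [(hmemL x).1 x.2, (hmemK y).1 y.2]
  have hdeta : LinearMap.det a = c ^ Module.finrank T L := by
    rw [hconj, LinearEquiv.conj_apply, LinearMap.comp_assoc, LinearMap.det_conj, LinearMap.det_prodMap, LinearMap.det_smul, LinearMap.det_id,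
      LinearMap.det_id, mul_one, mul_one]
  have hcr : c ^ Module.finrank T L = c := by rw [← hdeta, ha, hdet τ₀ hτ₀]
  have hcunit : IsUnit c := by
    have h1 : LinearMap.det (ρ τ₀) * LinearMap.det (ρ τ₀⁻¹) = 1 := by
      rw [← map_mul, ← map_mul, mul_inv_cancel, map_one, map_one]
    rw [hdet τ₀ hτ₀] at h1
    exact IsUnit.of_mul_eq_one _ h1
  have hrL : Module.finrank T L = 1 := by
    have hle : Module.finrank T L ≤ 2 := by omega
    interval_cases hr : Module.finrank T L
    · exfalso
      rw [pow_zero] at hcr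
      have : (u : T) = 0 := by rw [hu', ← hcr, sub_self]
      exact u.ne_zero this
    · rfl
    · exfalso
      have h3 : c * (u : T) = 0 := by rw [hu', mul_sub, mul_one, ← pow_two, hcr, sub_self]
      have h4 : c = 0 := by
        have := congrArg (fun x => x * (↑u⁻¹ : T)) h3
        simpa [mul_assoc] using this
      exact hcunit.ne_zero h4
  have hrK : Module.finrank T K = 1 := by omega
  -- the basis
  let bL : Module.Basis (Fin 1) T L := Module.finBasisOfFinrankEq T L hrL
  let bK : Module.Basis (Fin 1) T K := Module.finBasisOfFinrankEq T K hrK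
  let b : Module.Basis (Fin 2) T V := ((bL.prod bK).map e).reindex finSumFinEquiv
  have hb0 : b 0 = (bL 0 : V) := by
    have h0 : (finSumFinEquiv (m := 1) (n := 1)).symm 0 = Sum.inl 0 := by
      rw [Equiv.symm_apply_eq]
      rfl
    simp only [b, Module.Basis.reindex_apply, Module.Basis.map_apply, h0, Module.Basis.prod_apply,
      Sum.elim_inl, Function.comp_apply, LinearMap.coe_inl, e,
      Submodule.coe_prodEquivOfIsCompl', Submodule.coe_zero, add_zero]
  refine ⟨L, ⟨b, ?_⟩, hDL, hIL⟩
  rw [hb0]
  apply le_antisymm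
  · intro v hv
    have h1 : (⟨v, hv⟩ : L) ∈ Submodule.span T (Set.range bL) := by
      rw [bL.span_eq]
      exact Submodule.mem_top
    have h2 : Set.range bL = {bL 0} := by
      ext x
      constructor
      · rintro ⟨i, rfl⟩
        rw [Subsingleton.elim i 0]
        rfl
      · rintro rfl
        exact ⟨0, rfl⟩
    rw [h2, Submodule.mem_span_singleton] at h1
    obtain ⟨t, ht⟩ := h1
    rw [Submodule.mem_span_singleton]
    exact ⟨t, congrArg Subtype.val ht⟩
  · rw [Submodule.span_singleton_le_iff_mem]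
    exact (bL 0).2

end Fermat.Agent.S33.Alg.OrdLine
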