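import Mathlib
import Fermat.Prelude.Def_GaloisRep_LocalConditions
import Fermat.Agent.S30.Algebra.Cyclotomic
import Fermat.Agent.S56.Ord.OmegaRam
import Fermat.Agent.S37.Reduction
import Fermat.Agent.S33.Alg.OrdLine

/-!
# PROJECT N (S33), shared leaf `Alg/OrdOfKP` (helper10): `IsOrdinaryAt p` from `(KP-id)_T`

`ρ : GaloisRepAdic T` over a local ring `T`, `p` an odd prime, `ι : ℤ_[p] →+* T`,
`χ = Cyclotomic.cycChar p ι`.  If `det ρ = χ` and, for every valuation subring `P` of `ℚ̄` over `p`,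

  `(ρ τ - χ τ) (ρ σ - 1) = 0`   for all `σ, τ` in the inertia group of `P`     (KP-id),

then `ρ.IsOrdinaryAt p` (the Prelude's literal).

* `isUnit_cyc_sub_one` : an element of `G_ℚ` moving a `p`-th root of unity has `cyc - 1 ∈ ℤ_pˣ`;
* `exists_mem_inertia_isUnit` : for `p` odd the inertia group of `P` contains such an element
  (`S56/Ord/OmegaRam.exists_mem_inertia_ne`);
* `isOrdinaryAt_of_kpid` : the statement above, by `OrdLine.exists_ordinary_line`.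
-/

set_option autoImplicit false

namespace Fermat.Agent.S33.Alg.OrdOfKP

open Fermat.Agent.S30.Algebra

local notation "Qbar" => AlgebraicClosure ℚ
local notation "GQ" => (AlgebraicClosure ℚ ≃ₐ[ℚ] AlgebraicClosure ℚ)

variable (p : ℕ) [Fact p.Prime]

/-- An element of `G_ℚ` which moves a `p`-th root of unity has `cyc - 1` a unit of `ℤ_p`. -/
theorem isUnit_cyc_sub_one {σ : GQ} {ζ : Qbar} (hζ : ζ ^ p = 1) (hne : σ ζ ≠ ζ) :
    IsUnit (((Cyclotomic.cyc p σ : ℤ_[p]ˣ) : ℤ_[p]) - 1) := by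
  have hp : p.Prime := Fact.out
  by_contra hnu
  apply hne
  have hmem : ((Cyclotomic.cyc p σ : ℤ_[p]ˣ) : ℤ_[p]) - 1 ∈ Ideal.span {(p : ℤ_[p]) ^ 1} := by
    rw [pow_one, ← PadicInt.maximalIdeal_eq_span_p]
    exact (IsLocalRing.mem_maximalIdeal _).2 hnu
  rw [← PadicInt.ker_toZModPow, RingHom.mem_ker, map_sub, map_one, sub_eq_zero] at hmem
  have h := Cyclotomic.cyc_spec p σ 1 ζ (by rwa [pow_one])
  have h2 : p ^ 1 ≠ 1 := by
    rw [pow_one]
    exact hp.one_lt.ne'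
  rw [hmem, ZMod.val_one'' h2, pow_one] at h
  exact h

/-- For `p` odd, the inertia group of a valuation subring over `p` contains an element `τ₀` with
`cycChar τ₀ - 1` a unit, in any ring receiving `ℤ_p`. -/
theorem exists_mem_inertia_isUnit (hp2 : p ≠ 2) {T : Type*} [CommRing T] (ι : ℤ_[p] →+* T)
    {P : ValuationSubring Qbar} (hP : P.LiesOverPrime p) :
    ∃ τ₀ ∈ P.inertiaSubgroupIn ℚ, IsUnit (Cyclotomic.cycChar p ι τ₀ - 1) := by
  obtain ⟨τ₀, hτ₀, ζ, hζ, hne⟩ :=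
    Fermat.Agent.S56.Ord.OmegaRam.exists_mem_inertia_ne (Fact.out : p.Prime) hp2 hP
  refine ⟨τ₀, hτ₀, ?_⟩
  rw [Cyclotomic.cycChar_apply, ← map_one ι, ← map_sub]
  exact (isUnit_cyc_sub_one p hζ hne).map ι

/-- **`IsOrdinaryAt p` from `(KP-id)_T`.** -/
theorem isOrdinaryAt_of_kpid {T : Type} [CommRing T] [IsLocalRing T] (ρ : GaloisRepAdic T)
    (hp2 : p ≠ 2) (ι : ℤ_[p] →+* T)
    (hdet : ∀ σ : GQ, LinearMap.det (ρ.ρ σ) = Cyclotomic.cycChar p ι σ)
    (hKP : ∀ P : ValuationSubring Qbar, P.LiesOverPrime p →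
      ∀ σ ∈ P.inertiaSubgroupIn ℚ, ∀ τ ∈ P.inertiaSubgroupIn ℚ,
        (ρ.ρ τ - Cyclotomic.cycChar p ι τ • (1 : Module.End T ρ.V)) * (ρ.ρ σ - 1) = 0) :
    ρ.IsOrdinaryAt p := by
  intro P hP
  obtain ⟨τ₀, hτ₀, hu⟩ := exists_mem_inertia_isUnit p hp2 ι hP
  exact OrdLine.exists_ordinary_line ρ.finrank_eq ρ.ρ (fun σ => Cyclotomic.cycChar p ι σ)
    (P.decompositionSubgroup ℚ) (P.inertiaSubgroupIn ℚ)
    (fun g hg τ hτ => Fermat.Agent.S37.Reduction.conj_mem_inertiaSubgroupIn P hg hτ)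
    (hKP P hP) (fun τ _ => hdet τ) τ₀ hτ₀ hu

end Fermat.Agent.S33.Alg.OrdOfKP
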