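import Mathlib
import Fermat.Prelude.Def_CuspForm_HeckeGaloisRepDatum
import Fermat.Prelude.Def_GaloisRep_LocalConditions
import Fermat.Agent.S31.Assembly
import Fermat.Agent.S34.UnipCore
import Fermat.Agent.S33.Alg.OrdOfKP

/-!
# PROJECT N (S33), shared leaf `Alg/TopOfKP` (helper10): the frozen conclusion from `(KP-id)_T`

The binders are those of the frozen statement S33 (without `hres`, which is not needed at this
junction).  For ANY ring homomorphism `ι : ℤ_[p] →+* T` (the caller's choice), if for every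
valuation subring `P` of `ℚ̄` over `p` and all `σ, τ` in the inertia group of `P`

  `(H.ρ.ρ τ - cycChar p ι τ • 1) * (H.ρ.ρ σ - 1) = 0`                              (KP-id)_T

then `H.ρ.IsOrdinaryAt p`.

* `forall_mem_pow_eq_zero` : `T` is `𝔪`-adically separated (the literal `hsep` of `S34/UnipCore`);
* `natCast_mem_maximalIdeal` : `(p : T) ∈ 𝔪_T` from `(p : 𝒪) ∈ 𝔪_𝒪`;
* `nonempty_ringHom` : there is a ring homomorphism `ℤ_[p] →+* T`;
* `det_eq_cycChar` : `det H.ρ = cycChar p ι` (`S34/UnipCore.det_eq_cycChar` on the datum `H`);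
* `isOrdinaryAt_of_kpid` : the junction (`[Fact p.Prime]` as an instance);
* `frozen_of_kpid` : the same with the binders of the frozen statement.
-/

set_option autoImplicit false
set_option linter.unusedSectionVars false

namespace Fermat.Agent.S33.Alg.TopOfKP

open IsLocalRing CuspForm
open Fermat.Agent.S30.Algebra

local notation "Qbar" => AlgebraicClosure ℚ
local notation "GQ" => (AlgebraicClosure ℚ ≃ₐ[ℚ] AlgebraicClosure ℚ)

variable {p : ℕ} {N : ℕ} [NeZero N] {S : Finset ℕ}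
  {𝒪 : Type} [CommRing 𝒪] [IsDomain 𝒪] [IsDiscreteValuationRing 𝒪]
  [IsAdicComplete (IsLocalRing.maximalIdeal 𝒪) 𝒪]
  {θ : CuspForm.heckeAlgebra N 2 (↑S : Set ℕ) →+* IsLocalRing.ResidueField 𝒪}
  {T : Type} [CommRing T] [IsLocalRing T] [IsNoetherianRing T]
  [IsAdicComplete (IsLocalRing.maximalIdeal T) T] [Algebra 𝒪 T] [IsLocalHom (algebraMap 𝒪 T)]
  [Module.Finite 𝒪 T] [Module.Free 𝒪 T]

/-- `T` is `𝔪`-adically separated, in the literal shape `hsep` of `S34/UnipCore`. -/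
theorem forall_mem_pow_eq_zero (x : T) (hx : ∀ n, x ∈ maximalIdeal T ^ n) : x = 0 := by
  have hH : IsHausdorff (maximalIdeal T) T := inferInstance
  apply hH.haus'
  intro n
  rw [SModEq.zero, smul_eq_mul, Ideal.mul_top]
  exact hx n

/-- `p` lies in the maximal ideal of `T`. -/
theorem natCast_mem_maximalIdeal (hp𝒪 : (p : 𝒪) ∈ maximalIdeal 𝒪) : (p : T) ∈ maximalIdeal T := by
  rw [mem_maximalIdeal, mem_nonunits_iff]
  intro hu
  have h1 : IsUnit (algebraMap 𝒪 T (p : 𝒪)) := by rwa [map_natCast]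
  have h2 : IsUnit (p : 𝒪) := (isUnit_map_iff (algebraMap 𝒪 T) _).1 h1
  exact (mem_nonunits_iff.1 ((mem_maximalIdeal _).1 hp𝒪)) h2

/-- There is a ring homomorphism `ℤ_[p] →+* T`. -/
theorem nonempty_ringHom [Fact p.Prime] (hp𝒪 : (p : 𝒪) ∈ maximalIdeal 𝒪) :
    Nonempty (ℤ_[p] →+* T) :=
  Cyclotomic.exists_ringHom p (maximalIdeal T) (natCast_mem_maximalIdeal hp𝒪)

/-- **`det H.ρ` is the cyclotomic character**, for any `ι : ℤ_[p] →+* T`. -/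
theorem det_eq_cycChar [Fact p.Prime] (hp𝒪 : (p : 𝒪) ∈ maximalIdeal 𝒪) (hpS : p ∈ S)
    (hNS : ∀ q : ℕ, q.Prime → q ∣ N → q ∈ S)
    (H : CuspForm.HeckeGaloisRepDatum N (↑S : Set ℕ) 𝒪 θ T) (ι : ℤ_[p] →+* T) (σ : GQ) :
    LinearMap.det (H.ρ.ρ σ) = Cyclotomic.cycChar p ι σ := by
  have hnotdvd : ∀ ℓ : ℕ, ℓ.Prime → ℓ ∉ S → ¬ ℓ ∣ N := fun ℓ hℓ hℓS h => hℓS (hNS ℓ hℓ h)
  have hcoe : ∀ ℓ : ℕ, ℓ ∉ S → ℓ ∉ (↑S : Set ℕ) := fun ℓ h => by rwa [Finset.mem_coe]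
  refine Fermat.Agent.S34.UnipCore.det_eq_cycChar p (natCast_mem_maximalIdeal hp𝒪) ι S hpS
    (Fermat.Agent.S31.Assembly.Tl N S) H.ρ H.residual_absIrr H.π ?_
    (fun L _ s => Fermat.Agent.S30.Density.Bridge.frobenius_density_final L s S)
    forall_mem_pow_eq_zero σ
  intro ℓ hℓ hℓS A hA t ht
  rw [Fermat.Agent.S31.Assembly.Tl_eq hℓ (hnotdvd ℓ hℓ hℓS) (hcoe ℓ hℓS)]
  exact H.charpoly_frob ℓ hℓ (hnotdvd ℓ hℓ hℓS) (hcoe ℓ hℓS) A hA t ht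

/-- **`H.ρ.IsOrdinaryAt p` from `(KP-id)_T`**, with `[Fact p.Prime]` as an instance; `ι` is the
caller's choice. -/
theorem isOrdinaryAt_of_kpid [Fact p.Prime] (hp2 : p ≠ 2)
    (hp𝒪 : (p : 𝒪) ∈ IsLocalRing.maximalIdeal 𝒪) (hpN : p ∣ N)
    (hNS : ∀ q : ℕ, q.Prime → q ∣ N → q ∈ S)
    (H : CuspForm.HeckeGaloisRepDatum N (↑S : Set ℕ) 𝒪 θ T) (ι : ℤ_[p] →+* T)
    (hKP : ∀ P : ValuationSubring Qbar, P.LiesOverPrime p →
      ∀ σ ∈ P.inertiaSubgroupIn ℚ, ∀ τ ∈ P.inertiaSubgroupIn ℚ,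
        (H.ρ.ρ τ - Cyclotomic.cycChar p ι τ • (1 : Module.End T H.ρ.V)) * (H.ρ.ρ σ - 1) = 0) :
    H.ρ.IsOrdinaryAt p :=
  OrdOfKP.isOrdinaryAt_of_kpid p H.ρ hp2 ι
    (det_eq_cycChar hp𝒪 (hNS p Fact.out hpN) hNS H ι) hKP

/-- **The conclusion of the frozen statement S33 from `(KP-id)_T`.**  The binders are those of the
frozen statement (`hres` is not used at this junction); `hKP` may use any `ι : ℤ_[p] →+* T`. -/
theorem frozen_of_kpid (hp : p.Prime) (hp2 : p ≠ 2)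
    (hp𝒪 : (p : 𝒪) ∈ IsLocalRing.maximalIdeal 𝒪) (hN : p ∣ N ∧ ¬ p ^ 2 ∣ N)
    (hNS : ∀ q : ℕ, q.Prime → q ∣ N → q ∈ S)
    (H : CuspForm.HeckeGaloisRepDatum N (↑S : Set ℕ) 𝒪 θ T)
    (hKP : ∀ _ : Fact p.Prime, ∃ ι : ℤ_[p] →+* T,
      ∀ P : ValuationSubring Qbar, P.LiesOverPrime p →
        ∀ σ ∈ P.inertiaSubgroupIn ℚ, ∀ τ ∈ P.inertiaSubgroupIn ℚ,
          (H.ρ.ρ τ - Cyclotomic.cycChar p ι τ • (1 : Module.End T H.ρ.V)) * (H.ρ.ρ σ - 1) = 0) :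
    H.ρ.IsOrdinaryAt p := by
  have hF : Fact p.Prime := ⟨hp⟩
  obtain ⟨ι, h⟩ := hKP hF
  exact isOrdinaryAt_of_kpid hp2 hp𝒪 hN.1 hNS H ι h

end Fermat.Agent.S33.Alg.TopOfKP
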