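import Mathlib

/-!
# PROJECT N (S33), shared algebra leaf `Reach` (helper1): chains with steps of order `p`

The Raynaud step of PROJECT M (`S15/P/Integral.isInt_restrict_of_chain` and its consumers) asks for a
chain `⊥ = Fl 0 ≤ Fl 1 ≤ … ≤ Fl n` of subgroups of a finite abelian group, stable under a family of
additive maps `act τ`, with successive indices `1` or `p`.  This file produces such chains from the
data one actually has: a COARSE chain on whose steps every `act τ` is an integer scalar.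

* `Reach act p B` : `B` is the top of such a chain (the literal of `isInt_restrict_of_chain`);
* `reach_bot`, `reach_step`, `reach_stable`;
* `relIndex_map_dvd`, `reach_map` : images of reachable subgroups under equivariant maps;
* `reach_of_scalar` : REFINEMENT: `A` reachable, `A ≤ B`, `p • B ≤ A`, every `act τ` a scalar on
  `B / A`  ⟹  `B` reachable;
* `reach_of_coarse`, `reach_inf_of_coarse` : along a coarse chain, and intersected with a stable subgroup;
* `act_eq_nsmul_of_reach_top` : THE FUNCTIONAL TRICK: jointly injective equivariant maps `f i : M →+ P`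
  into a group on whose reachable subgroups `act τ` is the scalar `c τ` force `act τ = c τ` on `M`;
* `eq_top_of_trivial_quotient` : a scalar action with `c τ₀ ≢ 1 mod p` on a group killed by a power
  of `p` has no proper subgroup with trivial action on the quotient.

Mathlib only.
-/

set_option autoImplicit false

namespace Fermat.Agent.S33.Alg.Reach

variable {I : Type*} {M : Type*} [AddCommGroup M] {P : Type*} [AddCommGroup P]

/-- `B` is the top of a chain of `act`-stable subgroups starting at `⊥` with successive indices `1` or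
`p` (the hypotheses of `S15/P/Integral.isInt_restrict_of_chain`, verbatim). -/
def Reach (act : I → M → M) (p : ℕ) (B : AddSubgroup M) : Prop :=
  ∃ (Fl : ℕ → AddSubgroup M) (n : ℕ), Fl 0 = ⊥ ∧ Fl n = B ∧ (∀ i < n, Fl i ≤ Fl (i + 1)) ∧
    (∀ i ≤ n, ∀ τ, ∀ s ∈ Fl i, act τ s ∈ Fl i) ∧
    ∀ i < n, (Fl i).relIndex (Fl (i + 1)) = 1 ∨ (Fl i).relIndex (Fl (i + 1)) = p

theorem reach_bot (act : I → M → M) (p : ℕ) (h0 : ∀ τ, act τ 0 = 0) :
    Reach act p (⊥ : AddSubgroup M) :=
  ⟨fun _ => ⊥, 0, rfl, rfl, fun i hi => absurd hi (Nat.not_lt_zero i),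
    fun i _ τ s hs => by
      rw [AddSubgroup.mem_bot] at hs ⊢
      rw [hs, h0],
    fun i hi => absurd hi (Nat.not_lt_zero i)⟩

theorem reach_step {act : I → M → M} {p : ℕ} {A B : AddSubgroup M} (hA : Reach act p A)
    (hAB : A ≤ B) (hB : ∀ τ, ∀ s ∈ B, act τ s ∈ B)
    (hidx : A.relIndex B = 1 ∨ A.relIndex B = p) : Reach act p B := by
  obtain ⟨Fl, n, h0, hn, hmono, hstab, hi⟩ := hA
  refine ⟨fun i => if i ≤ n then Fl i else B, n + 1, ?_, ?_, ?_, ?_, ?_⟩
  · simp [h0]
  · simp
  · intro i hi'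
    by_cases h : i + 1 ≤ n
    · have h' : i ≤ n := by omega
      simp only [h, h', if_true]
      exact hmono i (by omega)
    · have h' : i = n := by omega
      subst h'
      simp only [le_refl, if_true, h, if_false]
      rw [hn]
      exact hAB
  · intro i hi' τ s hs
    by_cases h : i ≤ n
    · simp only [h, if_true] at hs ⊢
      exact hstab i h τ s hs
    · simp only [h, if_false] at hs ⊢
      exact hB τ s hs
  · intro i hi'
    by_cases h : i + 1 ≤ n
    · have h' : i ≤ n := by omega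
      simp only [h, h', if_true]
      exact hi i (by omega)
    · have h' : i = n := by omega
      subst h'
      simp only [le_refl, if_true, h, if_false]
      rw [hn]
      exact hidx

theorem reach_stable {act : I → M → M} {p : ℕ} {B : AddSubgroup M} (hB : Reach act p B) :
    ∀ τ, ∀ s ∈ B, act τ s ∈ B := by
  obtain ⟨Fl, n, -, hn, -, hstab, -⟩ := hB
  intro τ s hs
  rw [← hn] at hs ⊢
  exact hstab n le_rfl τ s hs

/-- the index of the images divides the index -/
theorem relIndex_map_dvd (f : M →+ P) {A B : AddSubgroup M} (hAB : A ≤ B) :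
    (A.map f).relIndex (B.map f) ∣ A.relIndex B := by
  rw [AddSubgroup.relIndex_map_map]
  have h1 : B ⊔ f.ker = B ⊔ (A ⊔ f.ker) := by
    rw [← sup_assoc, sup_eq_left.2 hAB]
  rw [h1, AddSubgroup.relIndex_sup_right, ← AddSubgroup.inf_relIndex_right]
  exact AddSubgroup.relIndex_dvd_of_le_left B (le_inf (le_sup_left) hAB)

theorem reach_map {actM : I → M → M} {actP : I → P → P} {p : ℕ} (hp : p.Prime) (f : M →+ P)
    (hf : ∀ τ m, f (actM τ m) = actP τ (f m)) {B : AddSubgroup M} (hB : Reach actM p B) :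
    Reach actP p (B.map f) := by
  obtain ⟨Fl, n, h0, hn, hmono, hstab, hi⟩ := hB
  refine ⟨fun i => (Fl i).map f, n, ?_, ?_, ?_, ?_, ?_⟩
  · simp [h0]
  · simp [hn]
  · intro i hi'
    exact AddSubgroup.map_mono (hmono i hi')
  · rintro i hi' τ _ ⟨m, hm, rfl⟩
    exact ⟨actM τ m, hstab i hi' τ m hm, hf τ m⟩
  · intro i hi'
    have hd := relIndex_map_dvd f (hmono i hi')
    rcases hi i hi' with h | h
    · rw [h, Nat.dvd_one] at hd
      exact Or.inl hd
    · rw [h] at hd
      exact (Nat.dvd_prime hp).1 hd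

/-- one step of order exactly `p`: adjoining an element `b ∉ A` with `p • b ∈ A` -/
theorem relIndex_sup_zmultiples {p : ℕ} (hp : p.Prime) (A : AddSubgroup M) {b : M} (hbA : b ∉ A)
    (hpb : p • b ∈ A) : A.relIndex (A ⊔ AddSubgroup.zmultiples b) = p := by
  have : Fact p.Prime := ⟨hp⟩
  have hker : (⊥ : AddSubgroup (M ⧸ A)).comap (QuotientAddGroup.mk' A) = A := by
    rw [AddMonoidHom.comap_bot, QuotientAddGroup.ker_mk']
  have h1 : A.relIndex (A ⊔ AddSubgroup.zmultiples b) =
      (⊥ : AddSubgroup (M ⧸ A)).relIndex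
        ((A ⊔ AddSubgroup.zmultiples b).map (QuotientAddGroup.mk' A)) := by
    rw [← AddSubgroup.relIndex_comap, hker]
  have hmapA : A.map (QuotientAddGroup.mk' A) = ⊥ := by
    rw [eq_bot_iff]
    rintro _ ⟨a, ha, rfl⟩
    rw [AddSubgroup.mem_bot, QuotientAddGroup.mk'_apply, QuotientAddGroup.eq_zero_iff]
    exact ha
  rw [h1, AddSubgroup.map_sup, hmapA, bot_sup_eq, AddMonoidHom.map_zmultiples,
    AddSubgroup.relIndex_bot_left, Nat.card_zmultiples]
  refine addOrderOf_eq_prime ?_ ?_
  · rw [← map_nsmul, QuotientAddGroup.mk'_apply, QuotientAddGroup.eq_zero_iff]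
    exact hpb
  · rw [QuotientAddGroup.mk'_apply, Ne, QuotientAddGroup.eq_zero_iff]
    exact hbA

/-- **refinement**: if `A` is reachable, `A ≤ B`, `p • B ≤ A` and every `act τ` is an integer scalar on
`B / A`, then `B` is reachable (`M` finite). -/
theorem reach_of_scalar [Finite M] {act : I → M →+ M} {p : ℕ} (hp : p.Prime) :
    ∀ (k : ℕ) {A B : AddSubgroup M}, A.relIndex B = k → Reach (fun τ => ⇑(act τ)) p A → A ≤ B →
      (∀ b ∈ B, p • b ∈ A) → (∀ τ, ∃ χ : ℤ, ∀ b ∈ B, act τ b - χ • b ∈ A) →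
      Reach (fun τ => ⇑(act τ)) p B := by
  intro k
  induction k using Nat.strong_induction_on with
  | _ k ih =>
    intro A B hk hA hAB hpB hχ
    by_cases hBA : B ≤ A
    · have : A = B := le_antisymm hAB hBA
      subst this
      exact hA
    · obtain ⟨b, hbB, hbA⟩ := SetLike.not_le_iff_exists.1 hBA
      set A' : AddSubgroup M := A ⊔ AddSubgroup.zmultiples b with hA'
      have hAA' : A ≤ A' := le_sup_left
      have hZB : AddSubgroup.zmultiples b ≤ B := AddSubgroup.zmultiples_le_of_mem hbB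
      have hA'B : A' ≤ B := sup_le hAB hZB
      have hstabA := reach_stable hA
      have hbA' : b ∈ A' := (le_sup_right : AddSubgroup.zmultiples b ≤ A')
        (AddSubgroup.mem_zmultiples b)
      have hstab' : ∀ τ, ∀ s ∈ A', act τ s ∈ A' := by
        intro τ s hs
        obtain ⟨a, ha, z, hz, rfl⟩ := AddSubgroup.mem_sup.1 hs
        obtain ⟨n, rfl⟩ := AddSubgroup.mem_zmultiples_iff.1 hz
        obtain ⟨χ, hχτ⟩ := hχ τ
        rw [map_add, map_zsmul]
        refine A'.add_mem (hAA' (hstabA τ a ha)) (A'.zsmul_mem ?_ n)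
        have : act τ b = (act τ b - χ • b) + χ • b := by abel
        rw [this]
        exact A'.add_mem (hAA' (hχτ b hbB)) (A'.zsmul_mem hbA' χ)
      have hidx : A.relIndex A' = p := relIndex_sup_zmultiples hp A hbA (hpB b hbB)
      have hmul := AddSubgroup.relIndex_mul_relIndex A A' B hAA' hA'B
      rw [hidx, hk] at hmul
      have hk0 : k ≠ 0 := by
        rw [← hk, AddSubgroup.relIndex]
        exact AddSubgroup.index_ne_zero_of_finite
      have hk' : A'.relIndex B < k := by
        have h2 := hp.two_le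
        have hpos : 0 < A'.relIndex B := by
          rcases Nat.eq_zero_or_pos (A'.relIndex B) with h | h
          · rw [h, mul_zero] at hmul
            exact absurd hmul.symm hk0
          · exact h
        nlinarith
      refine ih _ hk' rfl (reach_step hA hAA' hstab' (Or.inr hidx)) hA'B
        (fun b' hb' => hAA' (hpB b' hb')) fun τ => ?_
      obtain ⟨χ, hχτ⟩ := hχ τ
      exact ⟨χ, fun b' hb' => hAA' (hχτ b' hb')⟩

/-- **along a coarse chain**: `C 0 = ⊥`, `p • C (j+1) ≤ C j`, every `act τ` a scalar on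
`C (j+1) / C j`; then every `C j` is reachable. -/
theorem reach_of_coarse [Finite M] {act : I → M →+ M} {p : ℕ} (hp : p.Prime)
    (C : ℕ → AddSubgroup M) (h0 : C 0 = ⊥) (hmono : ∀ j, C j ≤ C (j + 1))
    (hpC : ∀ j, ∀ b ∈ C (j + 1), p • b ∈ C j)
    (hsc : ∀ j τ, ∃ χ : ℤ, ∀ b ∈ C (j + 1), act τ b - χ • b ∈ C j) (j : ℕ) :
    Reach (fun τ => ⇑(act τ)) p (C j) := by
  induction j with
  | zero =>
    rw [h0]
    exact reach_bot _ p fun τ => map_zero (act τ)
  | succ j ih => exact reach_of_scalar hp _ rfl ih (hmono j) (hpC j) (hsc j)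

/-- the same intersected with a stable subgroup `S` (which need not be compatible with anything
else): `C j ⊓ S` is reachable. -/
theorem reach_inf_of_coarse [Finite M] {act : I → M →+ M} {p : ℕ} (hp : p.Prime)
    (C : ℕ → AddSubgroup M) (h0 : C 0 = ⊥) (hmono : ∀ j, C j ≤ C (j + 1))
    (hpC : ∀ j, ∀ b ∈ C (j + 1), p • b ∈ C j)
    (hsc : ∀ j τ, ∃ χ : ℤ, ∀ b ∈ C (j + 1), act τ b - χ • b ∈ C j)
    (S : AddSubgroup M) (hS : ∀ τ, ∀ s ∈ S, act τ s ∈ S) (j : ℕ) :
    Reach (fun τ => ⇑(act τ)) p (C j ⊓ S) := by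
  refine reach_of_coarse hp (fun j => C j ⊓ S) ?_ (fun j => inf_le_inf_right S (hmono j))
    (fun j b hb => ⟨hpC j b hb.1, S.nsmul_mem hb.2 p⟩) (fun j τ => ?_) j
  · show C 0 ⊓ S = ⊥
    rw [h0, bot_inf_eq]
  · obtain ⟨χ, hχ⟩ := hsc j τ
    exact ⟨χ, fun b hb => ⟨hχ b hb.1, S.sub_mem (hS τ b hb.2) (S.zsmul_mem hb.2 χ)⟩⟩

/-- **the functional trick**: jointly injective equivariant maps into a group on whose reachable
subgroups `act τ` is the scalar `c τ`. -/
theorem act_eq_nsmul_of_reach_top {actM : I → M →+ M} {actP : I → P → P} {p : ℕ} (hp : p.Prime)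
    {ι : Type*} (f : ι → M →+ P) (hf : ∀ i τ m, f i (actM τ m) = actP τ (f i m))
    (hinj : ∀ m, (∀ i, f i m = 0) → m = 0) (c : I → ℕ)
    (hHopf : ∀ B : AddSubgroup P, Reach actP p B → ∀ τ, ∀ s ∈ B, actP τ s = c τ • s)
    (htop : Reach (fun τ => ⇑(actM τ)) p (⊤ : AddSubgroup M)) (τ : I) (m : M) :
    actM τ m = c τ • m := by
  apply sub_eq_zero.1
  apply hinj
  intro i
  have h := hHopf _ (reach_map hp (f i) (hf i) htop) τ (f i m) ⟨m, trivial, rfl⟩
  rw [map_sub, hf, map_nsmul, h, sub_self]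

/-- **the contradiction**: a scalar action `c` with `c τ₀ ≢ 1 mod p`, on a group killed by `p ^ k`, has
no proper subgroup with trivial action on the quotient. -/
theorem eq_top_of_trivial_quotient {actM : I → M →+ M} {p : ℕ} (hp : p.Prime) (k : ℕ)
    (hpM : ∀ m : M, (p ^ k) • m = 0) (c : I → ℕ) (hact : ∀ τ m, actM τ m = c τ • m)
    (L : AddSubgroup M) (htriv : ∀ τ m, actM τ m - m ∈ L) (τ₀ : I)
    (hτ₀ : ¬ (p : ℤ) ∣ (c τ₀ : ℤ) - 1) : L = ⊤ := by
  rw [eq_top_iff]
  intro m _
  have hcop : IsCoprime ((c τ₀ : ℤ) - 1) ((p : ℤ) ^ k) :=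
    (((Nat.prime_iff_prime_int.1 hp).coprime_iff_not_dvd.2 hτ₀).symm).pow_right
  obtain ⟨u, v, huv⟩ := hcop
  have h1 : ((c τ₀ : ℤ) - 1) • m ∈ L := by
    have := htriv τ₀ m
    rw [hact] at this
    rwa [sub_smul, one_smul, natCast_zsmul]
  have h2 : m = u • (((c τ₀ : ℤ) - 1) • m) + v • (((p : ℤ) ^ k) • m) := by
    rw [smul_smul, smul_smul, ← add_smul, huv, one_smul]
  have h3 : ((p : ℤ) ^ k) • m = 0 := by
    rw [← Nat.cast_pow, natCast_zsmul]
    exact hpM m
  rw [h2, h3, smul_zero, add_zero]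
  exact L.zsmul_mem h1 u

end Fermat.Agent.S33.Alg.Reach
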