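import Fermat.Agent.S32.TransferCore

/-!
# PROJECT N (S33), link (R3): the LOCALISED transfer lemma (helper1)

`S32/TransferCore.rho_sum_mem` says: an integral combination `x = ∑ mᵢ gᵢ` of Galois elements with
`r(x) Λ ⊆ I₀ᵏ Λ` satisfies `ρ(x) V ⊆ 𝔪ⁿ V`.  Here the hypothesis is weakened to the RANGE of a power
of one Hecke operator `θ h` with `π h` a unit of `T`:

  `r(x) (θ h)ᵃ Λ ⊆ I₀ᵏ Λ  ⟹  ρ(x) V ⊆ 𝔪ⁿ V`   (`rho_sum_mem_loc`).

When `h ≡ 1` modulo the maximal ideal `𝔪_θ` of the Hecke algebra cut out by the residual eigensystem and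
`h` lies in the other maximal ideals over `p`, the range of `(θ h)ᵃ` on `Λ / pᵏ Λ` is the `𝔪_θ`-primary
summand (`a` large); so it is enough to control the Galois action on that summand.  No idempotent, no
primary decomposition and no reducedness is used: the proof is `S32/Transfer.sum_trace_mem` verbatim
in the endomorphism ring of the range `Y`, with faithfulness for `Y` deduced from the faithfulness
of `Λ`: `θ_Y(s) = 0 ⟹ θ(s hᵃ) ≡ 0 ⟹ π(s) π(h)ᵃ ∈ J ⟹ π(s) ∈ J`.
-/

set_option autoImplicit false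
set_option linter.unusedSectionVars false

namespace Fermat.Agent.S33.Alg.TransferLoc

open Polynomial IsLocalRing
open Fermat.Agent.S31.Core
open Fermat.Agent.S30.Algebra.DetGalois (Density)
open Fermat.Agent.S32.Transfer Fermat.Agent.S32.RhoSide Fermat.Agent.S32.TransferCore

/-! ### Restriction of commuting endomorphisms to the range of a central operator -/

section Restrict

variable {R₀ : Type*} [CommRing R₀] {X : Type*} [AddCommGroup X] [Module R₀ X]

/-- an endomorphism commuting with `H` preserves the range of `H` -/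
theorem map_mem_range_of_commute {H f : Module.End R₀ X} (hf : Commute f H) {y : X}
    (hy : y ∈ LinearMap.range H) : f y ∈ LinearMap.range H := by
  obtain ⟨x, rfl⟩ := hy
  refine ⟨f x, ?_⟩
  have := LinearMap.congr_fun hf.eq x
  simpa only [Module.End.mul_apply] using this.symm

/-- restriction to the range of `H` of an endomorphism commuting with `H` -/
noncomputable def restr (H : Module.End R₀ X) (f : Module.End R₀ X) (hf : Commute f H) :
    Module.End R₀ ↥(LinearMap.range H) :=
  f.restrict fun _ hy => map_mem_range_of_commute hf hy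

@[simp]
theorem restr_apply (H : Module.End R₀ X) (f : Module.End R₀ X) (hf : Commute f H)
    (y : ↥(LinearMap.range H)) : ((restr H f hf y : ↥(LinearMap.range H)) : X) = f (y : X) := rfl

end Restrict

/-! ### The localised transfer lemma -/

section Main

variable {T : Type} [CommRing T] [IsLocalRing T]
variable {𝕋 : Type*} [CommRing 𝕋]
variable {R₀ : Type*} [CommRing R₀] {Λ : Type*} [AddCommGroup Λ] [Module R₀ Λ]
variable {Sg : Finset ℕ} {I₀ : Ideal R₀} {Tl : ℕ → 𝕋} {r : GQ →* Module.End R₀ Λ}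
  {ε : GQ →* R₀} {θ : 𝕋 →+* Module.End R₀ Λ}

/-- **Localised transfer lemma.**  As `S32/TransferCore.rho_sum_mem`, but the combination only has to
kill the range of `(θ h) ^ a` modulo `I₀ ^ k`, for one Hecke element `h` with `π h` a unit. -/
theorem rho_sum_mem_loc (hM : HeckeModule Sg I₀ Tl r ε θ)
    (hcommAll : ∀ (t : 𝕋) (g : GQ), Commute (θ t) (r g))
    (ρ : GaloisRepAdic T) (habs : ρ.residual.IsAbsolutelyIrreducible) (π : 𝕋 →+* T)
    (hcp : FrobCharpolyVia ρ Sg Tl π) (hdens : Density Sg)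
    (hinj : ∀ n : ℕ, ∃ n' : ℕ, ∀ t : 𝕋,
      (∀ v : Λ, θ t v ∈ (I₀ ^ n') • (⊤ : Submodule R₀ Λ)) → π t ∈ maximalIdeal T ^ n)
    (h2R : IsUnit (2 : R₀)) (h2T : IsUnit (2 : T))
    (c₀ : GQ) (hc : c₀ * c₀ = 1) (hεc : ε c₀ = -1) (hdetc : LinearMap.det (ρ.ρ c₀) = -1)
    (h : 𝕋) (hh : IsUnit (π h)) (n : ℕ) :
    ∃ k : ℕ, ∀ {ι : Type} (s : Finset ι) (m : ι → ℤ) (g : ι → GQ) (a : ℕ),
      (∀ v : Λ, (∑ i ∈ s, m i • r (g i)) (((θ h) ^ a) v) ∈ (I₀ ^ k) • (⊤ : Submodule R₀ Λ)) →
      ∀ v : ρ.V, (∑ i ∈ s, m i • ρ.ρ (g i)) v ∈ (maximalIdeal T ^ n) • (⊤ : Submodule T ρ.V) := by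
  classical
  obtain ⟨k, hk⟩ := hinj n
  refine ⟨k, ?_⟩
  intro ι s m g a hx
  -- approximants
  have happ := fun g : GQ => exists_approx hM ρ π hcp hdens g (max k n)
  choose β hβ1 hβ2 using happ
  set J : Ideal T := maximalIdeal T ^ n with hJ
  -- the reduced frame
  let rk : GQ →* Module.End R₀ (Λ ⧸ ((I₀ ^ k) • (⊤ : Submodule R₀ Λ))) :=
    ((redEnd (I₀ ^ k) : Module.End R₀ Λ →ₐ[R₀] _) : Module.End R₀ Λ →* _).comp r
  let θk : 𝕋 →+* Module.End R₀ (Λ ⧸ ((I₀ ^ k) • (⊤ : Submodule R₀ Λ))) :=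
    ((redEnd (I₀ ^ k) : Module.End R₀ Λ →ₐ[R₀] _) : Module.End R₀ Λ →+* _).comp θ
  have hrk : ∀ g, rk g = redEnd (I₀ ^ k) (r g) := fun _ => rfl
  have hθk : ∀ t, θk t = redEnd (I₀ ^ k) (θ t) := fun _ => rfl
  have hrel : ∀ g, rk g + ε g • rk g⁻¹ = θk (β g) := by
    intro g
    rw [hrk, hrk, hθk]
    exact red_rel (smallEnd_mono (Ideal.pow_le_pow_right (le_max_left k n)) (hβ1 g))
  have hcomm : ∀ t g, Commute (θk t) (rk g) := by
    intro t g
    rw [hrk, hθk]
    exact (hcommAll t g).map (redEnd (I₀ ^ k))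
  -- the central operator and its range
  set Hk : Module.End R₀ (Λ ⧸ ((I₀ ^ k) • (⊤ : Submodule R₀ Λ))) := θk (h ^ a) with hHk
  have hHk' : Hk = redEnd (I₀ ^ k) ((θ h) ^ a) := by
    rw [hHk, hθk, map_pow]
  have hcr : ∀ g, Commute (rk g) Hk := fun g => (hcomm (h ^ a) g).symm
  have hcθ : ∀ t, Commute (θk t) Hk := fun t => by
    rw [hHk, Commute, SemiconjBy, ← map_mul, ← map_mul, mul_comm]
  -- the restricted frame
  let r' : GQ →* Module.End R₀ ↥(LinearMap.range Hk) :=
    { toFun := fun g => restr Hk (rk g) (hcr g)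
      map_one' := by
        apply LinearMap.ext
        intro y
        apply Subtype.ext
        rw [restr_apply, map_one]
        rfl
      map_mul' := fun g g' => by
        apply LinearMap.ext
        intro y
        apply Subtype.ext
        rw [restr_apply, map_mul, Module.End.mul_apply, Module.End.mul_apply, restr_apply,
          restr_apply] }
  let θ' : 𝕋 →+* Module.End R₀ ↥(LinearMap.range Hk) :=
    { toFun := fun t => restr Hk (θk t) (hcθ t)
      map_one' := by
        apply LinearMap.ext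
        intro y
        apply Subtype.ext
        rw [restr_apply, map_one]
        rfl
      map_mul' := fun t t' => by
        apply LinearMap.ext
        intro y
        apply Subtype.ext
        rw [restr_apply, map_mul, Module.End.mul_apply, Module.End.mul_apply, restr_apply,
          restr_apply]
      map_zero' := by
        apply LinearMap.ext
        intro y
        apply Subtype.ext
        rw [restr_apply, map_zero]
        rfl
      map_add' := fun t t' => by
        apply LinearMap.ext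
        intro y
        apply Subtype.ext
        rw [restr_apply, map_add, LinearMap.add_apply, LinearMap.add_apply, Submodule.coe_add,
          restr_apply, restr_apply] }
  have hr' : ∀ g (y : ↥(LinearMap.range Hk)), ((r' g y : ↥(LinearMap.range Hk)) :
      Λ ⧸ ((I₀ ^ k) • (⊤ : Submodule R₀ Λ))) = rk g (y : _) := fun _ _ => rfl
  have hθ' : ∀ t (y : ↥(LinearMap.range Hk)), ((θ' t y : ↥(LinearMap.range Hk)) :
      Λ ⧸ ((I₀ ^ k) • (⊤ : Submodule R₀ Λ))) = θk t (y : _) := fun _ _ => rfl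
  have hrel' : ∀ g, r' g + ε g • r' g⁻¹ = θ' (β g) := by
    intro g
    apply LinearMap.ext
    intro y
    apply Subtype.ext
    rw [LinearMap.add_apply, LinearMap.smul_apply, Submodule.coe_add, Submodule.coe_smul, hr', hr',
      hθ', ← hrel g, LinearMap.add_apply, LinearMap.smul_apply]
  have hcomm' : ∀ t g, Commute (θ' t) (r' g) := by
    intro t g
    apply LinearMap.ext
    intro y
    apply Subtype.ext
    rw [Module.End.mul_apply, Module.End.mul_apply, hθ', hr', hr', hθ']
    have := LinearMap.congr_fun (hcomm t g).eq (y : _)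
    simpa only [Module.End.mul_apply] using this
  have h2' : ∀ y : Module.End R₀ ↥(LinearMap.range Hk), y + y = 0 → y = 0 := by
    intro y hy
    obtain ⟨u, hu⟩ := h2R
    have : (2 : R₀) • y = 0 := by rw [two_smul, hy]
    have h3 := congrArg (fun z => (↑u⁻¹ : R₀) • z) this
    simp only [smul_smul, smul_zero] at h3
    rwa [← hu, Units.inv_mul, one_smul] at h3
  have hlink : ∀ g, LinearMap.trace T ρ.V (ρ.ρ g) - π (β g) ∈ J := fun g =>
    Ideal.pow_le_pow_right (le_max_right k n) (hβ2 g)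
  -- faithfulness of the range
  have hfaith : ∀ t : 𝕋, θ' t = 0 → π t ∈ J := by
    intro t ht
    have h1 : θk (t * h ^ a) = 0 := by
      apply LinearMap.ext
      intro x
      rw [map_mul, Module.End.mul_apply, LinearMap.zero_apply]
      have h0 := congrArg
        (fun z : ↥(LinearMap.range Hk) => (z : Λ ⧸ ((I₀ ^ k) • (⊤ : Submodule R₀ Λ))))
        (LinearMap.congr_fun ht (⟨Hk x, LinearMap.mem_range_self Hk x⟩ : ↥(LinearMap.range Hk)))
      simpa only [hθ', LinearMap.zero_apply, ZeroMemClass.coe_zero] using h0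
    rw [hθk, redEnd_eq_zero_iff] at h1
    have h3 := hk _ h1
    rw [map_mul, map_pow] at h3
    obtain ⟨u, hu⟩ := hh.pow a
    have h4 := J.mul_mem_right (↑u⁻¹ : T) h3
    rwa [← hu, mul_assoc, Units.mul_inv, mul_one] at h4
  -- the two unit values
  have hspan := Fermat.Agent.S53.Centralizer.span_range_eq_top ρ habs
  have hCC : ρ.ρ c₀ * ρ.ρ c₀ = 1 := by rw [← map_mul, hc, map_one]
  obtain ⟨_, ⟨h₀, rfl⟩, _, ⟨g₀, rfl⟩, hu⟩ :=
    exists_isUnit_qM ρ.finrank_eq h2T (ρ.ρ c₀) hCC hdetc (Set.range ρ.ρ) hspan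
  obtain ⟨_, ⟨h₁, rfl⟩, _, ⟨g₁, rfl⟩, hu'⟩ :=
    exists_isUnit_qP ρ.finrank_eq h2T (ρ.ρ c₀) hCC hdetc (Set.range ρ.ρ) hspan
  -- the combination kills the range
  have hx0 : ∑ i ∈ s, m i • r' (g i) = 0 := by
    apply LinearMap.ext
    intro y
    apply Subtype.ext
    have e1 : (((∑ i ∈ s, m i • r' (g i)) y : ↥(LinearMap.range Hk)) :
        Λ ⧸ ((I₀ ^ k) • (⊤ : Submodule R₀ Λ))) = (∑ i ∈ s, m i • rk (g i)) (y : _) := by
      rw [LinearMap.sum_apply, LinearMap.sum_apply, AddSubmonoidClass.coe_finsetSum]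
      refine Finset.sum_congr rfl fun i _ => ?_
      rw [LinearMap.smul_apply, LinearMap.smul_apply, ← hr']
      exact AddSubgroupClass.coe_zsmul _ _
    rw [e1, LinearMap.zero_apply, ZeroMemClass.coe_zero]
    obtain ⟨x, hx'⟩ := LinearMap.mem_range.1 y.2
    obtain ⟨v, rfl⟩ := Submodule.Quotient.mk_surjective _ x
    rw [← hx', hHk', redEnd_mk]
    have e2 : (∑ i ∈ s, m i • rk (g i)) =
        redEnd (I₀ ^ k) (∑ i ∈ s, m i • r (g i)) := by
      rw [map_sum]
      refine Finset.sum_congr rfl fun i _ => ?_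
      rw [map_zsmul, hrk]
    rw [e2, redEnd_mk, Submodule.Quotient.mk_eq_zero]
    exact hx v
  -- traces of `x h`
  have htr : ∀ h' : GQ, ∑ i ∈ s, m i • LinearMap.trace T ρ.V (ρ.ρ (g i * h')) ∈ J := by
    intro h'
    refine sum_trace_mem (E := Module.End R₀ ↥(LinearMap.range Hk)) (r := r') (ε := ε) (θ := θ')
      (β := β) (c₀ := c₀) hrel' hcomm' hc hεc h2' π
      J (fun g => LinearMap.trace T ρ.V (ρ.ρ g)) hlink hfaith h₀ g₀ h₁ g₁ _ _ hu hu' ?_ ?_ s m
      (fun i => g i * h') ?_
    · simp only [map_mul, qM, sub_self, Ideal.zero_mem]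
    · simp only [map_mul, qP, sub_self, Ideal.zero_mem]
    · have : ∀ i ∈ s, m i • r' (g i * h') = (m i • r' (g i)) * r' h' := by
        intro i _
        rw [map_mul, smul_mul_assoc]
      rw [Finset.sum_congr rfl this, ← Finset.sum_mul, hx0, zero_mul]
  -- conclusion
  set X : Module.End T ρ.V := ∑ i ∈ s, m i • ρ.ρ (g i) with hX
  have hXh : ∀ h' : GQ, LinearMap.trace T ρ.V (X * ρ.ρ h') ∈ J := by
    intro h'
    have : X * ρ.ρ h' = ∑ i ∈ s, m i • ρ.ρ (g i * h') := by
      rw [hX, Finset.sum_mul]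
      refine Finset.sum_congr rfl fun i _ => ?_
      rw [map_mul, smul_mul_assoc]
    rw [this, map_sum]
    simpa only [map_zsmul] using htr h'
  have hall : ∀ Y : Module.End T ρ.V, LinearMap.trace T ρ.V (X * Y) ∈ J := by
    intro Y
    have hY : Y ∈ Submodule.span T (Set.range ρ.ρ) := hspan ▸ Submodule.mem_top
    induction hY using Submodule.span_induction with
    | mem y hy =>
      obtain ⟨h', rfl⟩ := hy
      exact hXh h'
    | zero => rw [mul_zero, map_zero]; exact J.zero_mem
    | add y z _ _ hy hz => rw [mul_add, map_add]; exact J.add_mem hy hz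
    | smul a y _ hy => rw [mul_smul_comm, map_smul]; exact J.mul_mem_left a hy
  exact forall_mem_smul_top_of_trace_mul_mem J X hall

end Main

end Fermat.Agent.S33.Alg.TransferLoc
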